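import Fermat.Agent.FF2.S32.Carayol

/-!
# FF2 / S32 : Carayol's lemma, linear form

`A` local, `N` a free `A`-module of rank two with `αN : G →* End_A(N)` whose image spans `End_A(N)`.
If `ρ' : G →* M₂(A)` is such that every `ρ' g` satisfies the characteristic polynomial
`X² - tr(αN g) X + det(αN g)`, then `(A², ρ') ≅ (N, αN)`.
-/

namespace Fermat.Agent.FF2.S32

open Matrix

section SpanSurj

variable {R G : Type*} [CommRing R] [Group G] (ρ : G →* Matrix (Fin 2) (Fin 2) R)

theorem rhoLin_surjective_of_span (h : Submodule.span R (Set.range ρ) = ⊤) :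
    Function.Surjective (rhoLin ρ) := by
  intro m
  have hm : m ∈ Submodule.span R (Set.range ρ) := h ▸ Submodule.mem_top
  induction hm using Submodule.span_induction with
  | mem m hm =>
    obtain ⟨g, rfl⟩ := hm
    exact ⟨MonoidAlgebra.of R G g, rhoLin_of ρ g⟩
  | zero => exact ⟨0, map_zero _⟩
  | add a b _ _ ha hb =>
    obtain ⟨a', rfl⟩ := ha
    obtain ⟨b', rfl⟩ := hb
    exact ⟨a' + b', map_add _ _ _⟩
  | smul r a _ ha =>
    obtain ⟨a', rfl⟩ := ha
    exact ⟨r • a', map_smul _ _ _⟩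

end SpanSurj

section Lin

variable {A G N : Type*} [CommRing A] [IsLocalRing A] [Group G] [AddCommGroup N] [Module A N]
  [Module.Free A N] [Module.Finite A N]

/-- **Carayol's lemma, linear form.** -/
theorem carayol_lin (hN : Module.finrank A N = 2)
    (αN : G →* Module.End A N) (hspan : Submodule.span A (Set.range αN) = ⊤)
    (ρ' : G →* Matrix (Fin 2) (Fin 2) A)
    (hch : ∀ g, ρ' g * ρ' g = (LinearMap.trace A N (αN g)) • ρ' g
      - (LinearMap.det (αN g)) • (1 : Matrix (Fin 2) (Fin 2) A)) :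
    ∃ f : (Fin 2 → A) ≃ₗ[A] N, ∀ g w, f ((ρ' g) *ᵥ w) = αN g (f w) := by
  classical
  let b : Module.Basis (Fin 2) A N := Module.finBasisOfFinrankEq A N hN
  let ρ : G →* Matrix (Fin 2) (Fin 2) A :=
    ((LinearMap.toMatrixAlgEquiv b : Module.End A N ≃ₐ[A] Matrix (Fin 2) (Fin 2) A) :
      Module.End A N →* Matrix (Fin 2) (Fin 2) A).comp αN
  have hρ : ∀ g, ρ g = LinearMap.toMatrix b b (αN g) := fun g => rfl
  have hρspan : Submodule.span A (Set.range ρ) = ⊤ := by
    have h1 : Set.range ρ = (LinearMap.toMatrixAlgEquiv b).toLinearEquiv.toLinearMap ''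
        Set.range αN := by
      ext m
      constructor
      · rintro ⟨g, rfl⟩
        exact ⟨αN g, ⟨g, rfl⟩, rfl⟩
      · rintro ⟨_, ⟨g, rfl⟩, rfl⟩
        exact ⟨g, rfl⟩
    rw [h1, Submodule.span_image, hspan, Submodule.map_top, LinearMap.range_eq_top]
    exact (LinearMap.toMatrixAlgEquiv b).surjective
  have hsurj := rhoLin_surjective_of_span ρ hρspan
  have htr : ∀ g, (ρ g).trace = LinearMap.trace A N (αN g) := fun g =>
    (LinearMap.trace_eq_matrix_trace A b (αN g)).symm
  have hdet : ∀ g, (ρ g).det = LinearMap.det (αN g) := fun g => LinearMap.det_toMatrix b (αN g)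
  let α' : G →* Module.End A (Fin 2 → A) :=
    ((Matrix.toLinAlgEquiv' : Matrix (Fin 2) (Fin 2) A ≃ₐ[A] Module.End A (Fin 2 → A)) :
      Matrix (Fin 2) (Fin 2) A →* Module.End A (Fin 2 → A)).comp ρ'
  have hα' : ∀ g w, α' g w = ρ' g *ᵥ w := fun g w => rfl
  have hch' : ∀ g : G, α' g * α' g = (ρ g).trace • α' g
      - (ρ g).det • (1 : Module.End A (Fin 2 → A)) := by
    intro g
    have h := congrArg (Matrix.toLinAlgEquiv' : Matrix (Fin 2) (Fin 2) A ≃ₐ[A] _) (hch g)
    rw [map_mul, map_sub, map_smul, map_smul, map_one] at h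
    rw [htr, hdet]
    exact h
  have hfin : Module.finrank A (Fin 2 → A) = 2 := by simp
  obtain ⟨e, he⟩ := carayol_module ρ α' hsurj hch' hfin
  refine ⟨e.trans b.equivFun.symm, ?_⟩
  intro g w
  rw [LinearEquiv.trans_apply, LinearEquiv.trans_apply, ← hα', he]
  set v := e w with hv
  set y := b.equivFun.symm v with hy
  have hyv : (b.repr y : Fin 2 → A) = v := by
    have := b.equivFun.apply_symm_apply v
    rw [← hy] at this
    exact this
  have h1 := LinearMap.toMatrix_mulVec_repr b b (αN g) y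
  rw [hyv, ← hρ] at h1
  rw [h1]
  exact b.equivFun.symm_apply_apply _

end Lin

end Fermat.Agent.FF2.S32
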