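import Fermat.Agent.FF2.S32.Morita

/-!
# FF2 / S32 : extraction of the free rank-two module `R²` from `M ≅ P × P`

`γ : M₂(R) →ₐ[R] End_R(M)`, `P = E₁₁ M` faithful and generated by `x : Fin n → P`.  Then
`J : R² → Mⁿ`, `w ↦ (Θ⁻¹ (w₀ xᵢ, w₁ xᵢ))ᵢ` is injective, `R`-linear and intertwines `m *ᵥ ·` with
`γ m` applied coordinatewise.
-/

namespace Fermat.Agent.FF2.S32

open Matrix

variable {R M : Type*} [CommRing R] [AddCommGroup M] [Module R M]
  (γ : Matrix (Fin 2) (Fin 2) R →ₐ[R] Module.End R M) {n : ℕ} (x : Fin n → moritaP γ)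

/-- The embedding `R² → Mⁿ`. -/
noncomputable def extractLin : (Fin 2 → R) →ₗ[R] (Fin n → M) where
  toFun w i := (moritaEquiv γ).symm (w 0 • x i, w 1 • x i)
  map_add' w w' := by
    ext i
    simp only [Pi.add_apply, add_smul]
    rw [← map_add]
    rfl
  map_smul' r w := by
    ext i
    simp only [Pi.smul_apply, smul_eq_mul, RingHom.id_apply, mul_smul]
    rw [← map_smul]
    rfl

theorem extractLin_apply (w : Fin 2 → R) (i : Fin n) :
    extractLin γ x w i = (moritaEquiv γ).symm (w 0 • x i, w 1 • x i) := rfl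

theorem moritaEquiv_extractLin (w : Fin 2 → R) (i : Fin n) :
    moritaEquiv γ (extractLin γ x w i) = (w 0 • x i, w 1 • x i) := by
  rw [extractLin_apply, LinearEquiv.apply_symm_apply]

/-- Equivariance of `extractLin`. -/
theorem extractLin_mulVec (m : Matrix (Fin 2) (Fin 2) R) (w : Fin 2 → R) (i : Fin n) :
    extractLin γ x (m *ᵥ w) i = γ m (extractLin γ x w i) := by
  apply (moritaEquiv γ).injective
  rw [morita_apply, moritaEquiv_extractLin, moritaEquiv_extractLin]
  simp only [Matrix.mulVec, dotProduct, Fin.sum_univ_two, add_smul, mul_smul]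

/-- Injectivity of `extractLin` for a faithful `P` generated by `x`. -/
theorem extractLin_injective (hx : Submodule.span R (Set.range x) = ⊤)
    (hP : ∀ r : R, (∀ p : moritaP γ, r • p = 0) → r = 0) :
    Function.Injective (extractLin γ x) := by
  rw [injective_iff_map_eq_zero]
  intro w hw
  have key : ∀ r : R, (∀ i, r • x i = 0) → r = 0 := by
    intro r hr
    apply hP
    intro p
    have hp : p ∈ Submodule.span R (Set.range x) := hx ▸ Submodule.mem_top
    induction hp using Submodule.span_induction with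
    | mem p hp =>
      obtain ⟨i, rfl⟩ := hp
      exact hr i
    | zero => rw [smul_zero]
    | add p q _ _ hp hq => rw [smul_add, hp, hq, add_zero]
    | smul s p _ hp => rw [smul_comm, hp, smul_zero]
  have h1 : ∀ i, (w 0 • x i, w 1 • x i) = (0 : moritaP γ × moritaP γ) := by
    intro i
    rw [← moritaEquiv_extractLin, hw]
    simp
  ext j
  fin_cases j
  · exact key _ fun i => (Prod.ext_iff.1 (h1 i)).1
  · exact key _ fun i => (Prod.ext_iff.1 (h1 i)).2

end Fermat.Agent.FF2.S32
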