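import Fermat.Agent.FF2.S32.Rep
import Fermat.Agent.FF2.S32.Extract
import Fermat.Agent.FF2.S32.CarayolLin

/-!
# FF2 / S32 : the algebra black box (STEP 3–5 of plan #1672)

`R` an Artinian local ring, `M` a finite faithful `R`-module with a `G`-action `αM` such that
`αM g` satisfies `X² - t(g) X + d(g)` (`t, d : G → R`).  `Φ : R → A` a surjective ring map onto a
local ring `A`, `N` a free `A`-module of rank two with an action `αN` whose image spans `End_A(N)`,
with `Φ(t g) = tr(αN g)`, `Φ(d g) = det(αN g)`.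

Then there are `ρR : G →* M₂(R)`, an injective additive map `ι : R² → Mⁿ` and a surjective
additive map `π : R² → N`, both `G`-equivariant (for `ρR` on `R²`, `αM` coordinatewise on `Mⁿ`,
`αN` on `N`): so `N` is a `G`-quotient of a `G`-submodule of `Mⁿ`.
-/

namespace Fermat.Agent.FF2.S32

open Matrix

variable {R A G M N : Type*} [CommRing R] [IsLocalRing R] [IsArtinianRing R]
  [CommRing A] [IsLocalRing A] [Group G]
  [AddCommGroup M] [Module R M] [Module.Finite R M]
  [AddCommGroup N] [Module A N] [Module.Free A N] [Module.Finite A N]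

theorem mapMatrix_smul {R S : Type*} [CommRing R] [CommRing S] (f : R →+* S) (r : R)
    (m : Matrix (Fin 2) (Fin 2) R) : f.mapMatrix (r • m) = f r • f.mapMatrix m := by
  ext i j
  simp [RingHom.mapMatrix_apply]

/-- **The algebra black box** (roof form). -/
theorem exists_roof
    (hfaith : ∀ r : R, (∀ m : M, r • m = 0) → r = 0)
    (αM : G →* Module.End R M) (t d : G → R)
    (hch : ∀ g, αM g * αM g = t g • αM g - d g • (1 : Module.End R M))
    (Φ : R →+* A) (hΦ : Function.Surjective Φ)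
    (hN : Module.finrank A N = 2)
    (αN : G →* Module.End A N)
    (hspan : Submodule.span A (Set.range αN) = ⊤)
    (htr : ∀ g, Φ (t g) = LinearMap.trace A N (αN g))
    (hdet : ∀ g, Φ (d g) = LinearMap.det (αN g)) :
    ∃ (n : ℕ) (ρR : G →* Matrix (Fin 2) (Fin 2) R) (ι : (Fin 2 → R) →+ (Fin n → M))
      (π : (Fin 2 → R) →+ N),
      Function.Injective ι ∧ Function.Surjective π ∧
      (∀ g w i, ι (ρR g *ᵥ w) i = αM g (ι w i)) ∧
      (∀ g w, π (ρR g *ᵥ w) = αN g (π w)) := by
  classical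
  -- the nilpotent maximal ideal
  set 𝔫 := IsLocalRing.maximalIdeal R with h𝔫
  obtain ⟨c, hc⟩ : ∃ c : ℕ, 𝔫 ^ c = ⊥ := by
    have h := IsArtinianRing.isNilpotent_jacobson_bot (R := R)
    rw [IsLocalRing.jacobson_eq_maximalIdeal ⊥ bot_ne_top] at h
    obtain ⟨c, hc⟩ := h
    exact ⟨c, hc⟩
  -- the residual representation
  have hker : RingHom.ker Φ ≤ RingHom.ker (Ideal.Quotient.mk 𝔫) := by
    intro x hx
    rw [Ideal.mk_ker, h𝔫, IsLocalRing.mem_maximalIdeal, mem_nonunits_iff]
    intro hu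
    have h1 : IsUnit (Φ x) := hu.map Φ
    rw [RingHom.mem_ker] at hx
    rw [hx] at h1
    exact not_isUnit_zero h1
  set ψ : A →+* R ⧸ 𝔫 := (Φ.liftOfSurjective hΦ) ⟨Ideal.Quotient.mk 𝔫, hker⟩ with hψ
  have hψΦ : ∀ r, ψ (Φ r) = Ideal.Quotient.mk 𝔫 r := fun r =>
    Φ.liftOfSurjective_comp_apply hΦ ⟨Ideal.Quotient.mk 𝔫, hker⟩ r
  let b : Module.Basis (Fin 2) A N := Module.finBasisOfFinrankEq A N hN
  let ρA : G →* Matrix (Fin 2) (Fin 2) A :=
    ((LinearMap.toMatrixAlgEquiv b : Module.End A N ≃ₐ[A] Matrix (Fin 2) (Fin 2) A) :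
      Module.End A N →* Matrix (Fin 2) (Fin 2) A).comp αN
  have hρA : ∀ g, ρA g = LinearMap.toMatrix b b (αN g) := fun g => rfl
  have hρAspan : Submodule.span A (Set.range ρA) = ⊤ := by
    have h1 : Set.range ρA = (LinearMap.toMatrixAlgEquiv b).toLinearEquiv.toLinearMap ''
        Set.range αN := by
      ext m
      constructor
      · rintro ⟨g, rfl⟩
        exact ⟨αN g, ⟨g, rfl⟩, rfl⟩
      · rintro ⟨_, ⟨g, rfl⟩, rfl⟩
        exact ⟨g, rfl⟩
    rw [h1, Submodule.span_image, hspan, Submodule.map_top, LinearMap.range_eq_top]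
    exact (LinearMap.toMatrixAlgEquiv b).surjective
  let ρb : G →* Matrix (Fin 2) (Fin 2) (R ⧸ 𝔫) :=
    (ψ.mapMatrix : Matrix (Fin 2) (Fin 2) A →+* Matrix (Fin 2) (Fin 2) (R ⧸ 𝔫)).toMonoidHom.comp ρA
  have hρb : ∀ g, ρb g = ψ.mapMatrix (ρA g) := fun g => rfl
  have hψsurj : Function.Surjective ψ := by
    intro y
    obtain ⟨r, rfl⟩ := Ideal.Quotient.mk_surjective y
    exact ⟨Φ r, hψΦ r⟩
  have hρbspan : Submodule.span (R ⧸ 𝔫) (Set.range ρb) = ⊤ := by
    have key : ∀ m ∈ Submodule.span A (Set.range ρA),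
        ψ.mapMatrix m ∈ Submodule.span (R ⧸ 𝔫) (Set.range ρb) := by
      intro m hmem
      induction hmem using Submodule.span_induction with
      | mem x hx =>
        obtain ⟨g, rfl⟩ := hx
        exact Submodule.subset_span ⟨g, rfl⟩
      | zero => rw [map_zero]; exact Submodule.zero_mem _
      | add x y _ _ hx hy => rw [map_add]; exact Submodule.add_mem _ hx hy
      | smul a x _ hx =>
        rw [mapMatrix_smul]
        exact Submodule.smul_mem _ _ hx
    rw [eq_top_iff]
    intro mb _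
    have hmm : ψ.mapMatrix (mb.map (Function.surjInv hψsurj)) = mb := by
      ext i j
      simp only [RingHom.mapMatrix_apply, Matrix.map_apply]
      exact Function.surjInv_eq _ _
    rw [← hmm]
    exact key _ (hρAspan ▸ Submodule.mem_top)
  have hsurjb := rhoLin_surjective_of_span ρb hρbspan
  have htrA : ∀ g, (ρA g).trace = LinearMap.trace A N (αN g) := fun g =>
    (LinearMap.trace_eq_matrix_trace A b (αN g)).symm
  have hdetA : ∀ g, (ρA g).det = LinearMap.det (αN g) := fun g =>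
    LinearMap.det_toMatrix b (αN g)
  have ht : ∀ g, Ideal.Quotient.mk 𝔫 (t g) = (ρb g).trace := by
    intro g
    rw [← hψΦ, htr, ← htrA, hρb, RingHom.mapMatrix_apply]
    exact AddMonoidHom.map_trace ψ (ρA g)
  have hd : ∀ g, Ideal.Quotient.mk 𝔫 (d g) = (ρb g).det := by
    intro g
    rw [← hψΦ, hdet, ← hdetA, hρb]
    exact RingHom.map_det ψ (ρA g)
  -- the representation over `R`
  obtain ⟨γ, ρR, hinj, hγρ, hchR⟩ := exists_matrix_rep 𝔫 hc hfaith αM ρb hsurjb t d ht hd hch
  -- generators of `P`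
  have : Module.Finite R (moritaP γ) :=
    inferInstanceAs (Module.Finite R (LinearMap.range (γ (E 0 0))))
  obtain ⟨n, x, hx⟩ := Module.Finite.exists_fin (R := R) (M := moritaP γ)
  have hJinj := extractLin_injective γ x hx (moritaP_faithful γ hfaith)
  -- Carayol
  let ρ' : G →* Matrix (Fin 2) (Fin 2) A :=
    (Φ.mapMatrix : Matrix (Fin 2) (Fin 2) R →+* Matrix (Fin 2) (Fin 2) A).toMonoidHom.comp ρR
  have hρ' : ∀ g, ρ' g = (ρR g).map Φ := fun g => rfl
  have hch' : ∀ g, ρ' g * ρ' g = (LinearMap.trace A N (αN g)) • ρ' g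
      - (LinearMap.det (αN g)) • (1 : Matrix (Fin 2) (Fin 2) A) := by
    intro g
    have h := congrArg Φ.mapMatrix (hchR g)
    rw [map_mul, map_sub] at h
    have h1 : Φ.mapMatrix (t g • ρR g) = Φ (t g) • Φ.mapMatrix (ρR g) := mapMatrix_smul Φ _ _
    have h2 : Φ.mapMatrix (d g • (1 : Matrix (Fin 2) (Fin 2) R))
        = Φ (d g) • (1 : Matrix (Fin 2) (Fin 2) A) := by
      rw [mapMatrix_smul, map_one]
    rw [h1, h2, htr, hdet] at h
    exact h
  obtain ⟨f, hf⟩ := carayol_lin hN αN hspan ρ' hch'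
  -- assemble
  refine ⟨n, ρR, (extractLin γ x).toAddMonoidHom,
    { toFun := fun w => f (Φ ∘ w)
      map_zero' := by
        have : (Φ ∘ (0 : Fin 2 → R)) = 0 := by ext i; simp
        rw [this, map_zero]
      map_add' := fun w w' => by
        have : (Φ ∘ (w + w')) = (Φ ∘ w) + (Φ ∘ w') := by ext i; simp
        rw [this, map_add] }, hJinj, ?_, ?_, ?_⟩
  · intro y
    obtain ⟨v, rfl⟩ := f.surjective y
    refine ⟨fun i => Function.surjInv hΦ (v i), ?_⟩
    show f (Φ ∘ fun i => Function.surjInv hΦ (v i)) = f v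
    congr 1
    ext i
    exact Function.surjInv_eq hΦ (v i)
  · intro g w i
    show extractLin γ x (ρR g *ᵥ w) i = αM g (extractLin γ x w i)
    rw [extractLin_mulVec, hγρ]
  · intro g w
    show f (Φ ∘ (ρR g *ᵥ w)) = αN g (f (Φ ∘ w))
    rw [← hf, hρ']
    congr 1
    ext i
    exact RingHom.map_mulVec Φ (ρR g) w i

end Fermat.Agent.FF2.S32
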