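import Mathlib

/-!
# FF2 / S32 : the Boston–Lenstra–Ribet theorem

`R` a commutative ring, `A` an `R`-algebra spanned by the image of a group `G` under a monoid
homomorphism `ι : G →* A`, `ρA : A →ₐ[R] M₂(R)` a surjective algebra map such that every `ι g`
satisfies the characteristic polynomial of `ρA (ι g)`:

  `ι g * ι g = tr(ρA (ι g)) • ι g - det(ρA (ι g)) • 1`.

Then `ρA` is injective (`blr_injective`), i.e. `A ≅ M₂(R)`.

Proof (BLR 1991): the `R`-linear map `a ↦ a⋆ := tr(ρA a) - a` is an anti-involution of `A`
(check on group elements, where `(ι g)⋆ = det · (ι g)⁻¹`), `a a⋆ = det(ρA a)`, so every element of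
`A` satisfies its characteristic polynomial; lifts `u, v` of the matrix units `E₁₂, E₂₁` give
orthogonal idempotents `e = uv`, `f = vu` with `e + f = 1`, `e⋆ = f`; and an element of the kernel
has all four Peirce components zero.
-/

namespace Fermat.Agent.FF2.S32

open Matrix

section TwoByTwo

variable {R : Type*} [CommRing R]

theorem adjugate_eq_trace_sub (M : Matrix (Fin 2) (Fin 2) R) :
    M.adjugate = algebraMap R (Matrix (Fin 2) (Fin 2) R) M.trace - M := by
  rw [Matrix.adjugate_fin_two]
  ext i j
  fin_cases i <;> fin_cases j <;>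
    simp [Matrix.trace_fin_two, Matrix.algebraMap_matrix_apply]

theorem mul_trace_sub_self (M : Matrix (Fin 2) (Fin 2) R) :
    M * (algebraMap R (Matrix (Fin 2) (Fin 2) R) M.trace - M)
      = algebraMap R (Matrix (Fin 2) (Fin 2) R) M.det := by
  rw [← adjugate_eq_trace_sub, Matrix.mul_adjugate, Algebra.algebraMap_eq_smul_one]

theorem algebraMap_matrix_injective :
    Function.Injective (algebraMap R (Matrix (Fin 2) (Fin 2) R)) := by
  intro r s h
  have := congrFun (congrFun h 0) 0
  simpa [Matrix.algebraMap_matrix_apply] using this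

end TwoByTwo

section BLR

variable {R A G : Type*} [CommRing R] [Ring A] [Algebra R A] [Group G]
  (ι : G →* A) (ρA : A →ₐ[R] Matrix (Fin 2) (Fin 2) R)

/-- The trace functional `a ↦ tr (ρA a)`. -/
def trA : A →ₗ[R] R := (Matrix.traceLinearMap (Fin 2) R R).comp ρA.toLinearMap

@[simp] theorem trA_apply (a : A) : trA ρA a = (ρA a).trace := rfl

/-- The BLR involution `a ↦ tr (ρA a) - a`. -/
def starA : A →ₗ[R] A := (Algebra.linearMap R A).comp (trA ρA) - LinearMap.id

theorem starA_apply (a : A) : starA ρA a = algebraMap R A (ρA a).trace - a := rfl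

theorem add_starA (a : A) : a + starA ρA a = algebraMap R A (ρA a).trace := by
  rw [starA_apply]; abel

theorem trace_adjugate_two {R : Type*} [CommRing R] (M : Matrix (Fin 2) (Fin 2) R) :
    M.adjugate.trace = M.trace := by
  rw [Matrix.adjugate_fin_two]
  simp [Matrix.trace_fin_two, add_comm]

theorem rho_starA (a : A) : ρA (starA ρA a) = (ρA a).adjugate := by
  rw [starA_apply, map_sub, AlgHom.commutes, adjugate_eq_trace_sub]

theorem starA_starA (a : A) : starA ρA (starA ρA a) = a := by
  rw [starA_apply (a := starA ρA a), rho_starA, trace_adjugate_two, starA_apply]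
  abel

theorem starA_of_ker {a : A} (ha : ρA a = 0) : starA ρA a = -a := by
  rw [starA_apply, ha, Matrix.trace_zero, map_zero, zero_sub]

variable {ι ρA}

/-- Hypothesis bundle of the BLR theorem. -/
structure BLRData (ι : G →* A) (ρA : A →ₐ[R] Matrix (Fin 2) (Fin 2) R) : Prop where
  span : Submodule.span R (Set.range ι) = ⊤
  surj : Function.Surjective ρA
  ch : ∀ g : G, ι g * ι g = (ρA (ι g)).trace • ι g - (ρA (ι g)).det • (1 : A)

theorem isUnit_gen {A G : Type*} [Ring A] [Group G] (ι : G →* A) (g : G) : IsUnit (ι g) := by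
  refine ⟨⟨ι g, ι g⁻¹, ?_, ?_⟩, rfl⟩
  · rw [← map_mul, mul_inv_cancel, map_one]
  · rw [← map_mul, inv_mul_cancel, map_one]

namespace BLRData

variable (h : BLRData ι ρA)
include h

theorem gen_mul_starA (g : G) :
    ι g * starA ρA (ι g) = algebraMap R A (ρA (ι g)).det := by
  rw [starA_apply, mul_sub, h.ch g, Algebra.algebraMap_eq_smul_one, Algebra.algebraMap_eq_smul_one]
  simp only [mul_smul_comm, mul_one]
  abel

theorem starA_mul_gen (g : G) :
    starA ρA (ι g) * ι g = algebraMap R A (ρA (ι g)).det := by
  rw [starA_apply, sub_mul, h.ch g, Algebra.algebraMap_eq_smul_one, Algebra.algebraMap_eq_smul_one]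
  simp only [smul_mul_assoc, one_mul]
  abel

/-- Anti-multiplicativity of the involution on group elements. -/
theorem starA_gen_mul (g k : G) :
    starA ρA (ι (g * k)) = starA ρA (ι k) * starA ρA (ι g) := by
  have hu := isUnit_gen ι (g * k)
  refine hu.mul_left_injective ?_
  show starA ρA (ι (g * k)) * ι (g * k) = starA ρA (ι k) * starA ρA (ι g) * ι (g * k)
  rw [h.starA_mul_gen (g * k)]
  have e1 : starA ρA (ι k) * starA ρA (ι g) * ι (g * k)
      = starA ρA (ι k) * (starA ρA (ι g) * ι g) * ι k := by
    rw [map_mul]; noncomm_ring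
  rw [e1, h.starA_mul_gen g, mul_assoc, Algebra.commutes, ← mul_assoc, h.starA_mul_gen k,
    ← map_mul, map_mul ι, map_mul ρA, Matrix.det_mul, mul_comm]

/-- Anti-multiplicativity of the involution. -/
theorem starA_mul (a b : A) : starA ρA (a * b) = starA ρA b * starA ρA a := by
  have hb : b ∈ Submodule.span R (Set.range ι) := h.span ▸ Submodule.mem_top
  have ha : a ∈ Submodule.span R (Set.range ι) := h.span ▸ Submodule.mem_top
  -- first for `a` a group element
  have step : ∀ g : G, ∀ b : A, starA ρA (ι g * b) = starA ρA b * starA ρA (ι g) := by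
    intro g b
    have hb : b ∈ Submodule.span R (Set.range ι) := h.span ▸ Submodule.mem_top
    induction hb using Submodule.span_induction with
    | mem x hx =>
      obtain ⟨k, rfl⟩ := hx
      rw [← map_mul]; exact h.starA_gen_mul g k
    | zero => simp
    | add x y _ _ hx hy => rw [mul_add, map_add, hx, hy, map_add, add_mul]
    | smul c x _ hx => rw [mul_smul_comm, map_smul, hx, map_smul, smul_mul_assoc]
  induction ha using Submodule.span_induction with
  | mem x hx =>
    obtain ⟨g, rfl⟩ := hx
    exact step g b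
  | zero => simp
  | add x y _ _ hx hy => rw [add_mul, map_add, hx, hy, map_add, mul_add]
  | smul c x _ hx => rw [smul_mul_assoc, map_smul, hx, map_smul, mul_smul_comm]

/-- `a a⋆` is a scalar. -/
theorem exists_mul_starA (a : A) : ∃ r : R, a * starA ρA a = algebraMap R A r := by
  have ha : a ∈ Submodule.span R (Set.range ι) := h.span ▸ Submodule.mem_top
  induction ha using Submodule.span_induction with
  | mem x hx =>
    obtain ⟨g, rfl⟩ := hx
    exact ⟨_, h.gen_mul_starA g⟩
  | zero => exact ⟨0, by simp⟩
  | add x y _ _ hx hy =>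
    obtain ⟨r, hr⟩ := hx
    obtain ⟨s, hs⟩ := hy
    refine ⟨r + s + (ρA (x * starA ρA y)).trace, ?_⟩
    have hcross : x * starA ρA y + y * starA ρA x
        = algebraMap R A (ρA (x * starA ρA y)).trace := by
      rw [← add_starA ρA (x * starA ρA y), h.starA_mul, starA_starA]
    rw [map_add, mul_add, add_mul, add_mul, hr, hs, map_add, map_add, ← hcross]
    abel
  | smul c x _ hx =>
    obtain ⟨r, hr⟩ := hx
    refine ⟨c * c * r, ?_⟩
    rw [map_smul, smul_mul_smul_comm, hr, Algebra.algebraMap_eq_smul_one,
      Algebra.algebraMap_eq_smul_one, smul_smul]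

theorem mul_starA (a : A) : a * starA ρA a = algebraMap R A (ρA a).det := by
  obtain ⟨r, hr⟩ := h.exists_mul_starA a
  have h1 := congrArg ρA hr
  rw [map_mul, rho_starA, Matrix.mul_adjugate, AlgHom.commutes,
    ← Algebra.algebraMap_eq_smul_one] at h1
  rw [hr, algebraMap_matrix_injective h1]

/-- **Cayley–Hamilton in `A`**: every element satisfies the characteristic polynomial of its
image. -/
theorem cayley_hamilton (a : A) :
    a * a = (ρA a).trace • a - (ρA a).det • (1 : A) := by
  have h1 := h.mul_starA a
  rw [starA_apply, mul_sub, Algebra.algebraMap_eq_smul_one, Algebra.algebraMap_eq_smul_one,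
    mul_smul_comm, mul_one] at h1
  rw [← h1]; abel

theorem mul_self_eq_zero {a : A} (ht : (ρA a).trace = 0) (hd : (ρA a).det = 0) : a * a = 0 := by
  rw [h.cayley_hamilton a, ht, hd, zero_smul, zero_smul, sub_zero]

theorem mul_self_eq_self {a : A} (ht : (ρA a).trace = 1) (hd : (ρA a).det = 0) : a * a = a := by
  rw [h.cayley_hamilton a, ht, hd, one_smul, zero_smul, sub_zero]

/-- **Boston–Lenstra–Ribet**: `ρA` is injective. -/
theorem injective : Function.Injective ρA := by
  rw [injective_iff_map_eq_zero]
  obtain ⟨u, hu⟩ := h.surj !![0, 1; 0, 0]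
  obtain ⟨v, hv⟩ := h.surj !![0, 0; 1, 0]
  have huu : u * u = 0 := h.mul_self_eq_zero (by rw [hu]; simp [Matrix.trace_fin_two])
    (by rw [hu]; simp [Matrix.det_fin_two])
  have hvv : v * v = 0 := h.mul_self_eq_zero (by rw [hv]; simp [Matrix.trace_fin_two])
    (by rw [hv]; simp [Matrix.det_fin_two])
  obtain ⟨e, he⟩ : ∃ e : A, e = u * v := ⟨_, rfl⟩
  obtain ⟨f, hf⟩ : ∃ f : A, f = v * u := ⟨_, rfl⟩
  have hρe : ρA e = !![1, 0; 0, 0] := by
    rw [he, map_mul, hu, hv]
    ext i j; fin_cases i <;> fin_cases j <;> simp [Matrix.mul_apply, Fin.sum_univ_two]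
  have hρf : ρA f = !![0, 0; 0, 1] := by
    rw [hf, map_mul, hu, hv]
    ext i j; fin_cases i <;> fin_cases j <;> simp [Matrix.mul_apply, Fin.sum_univ_two]
  have hee : e * e = e := h.mul_self_eq_self (by rw [hρe]; simp [Matrix.trace_fin_two])
    (by rw [hρe]; simp [Matrix.det_fin_two])
  have hff : f * f = f := h.mul_self_eq_self (by rw [hρf]; simp [Matrix.trace_fin_two])
    (by rw [hρf]; simp [Matrix.det_fin_two])
  have hef : e * f = 0 := by
    rw [he, hf]
    calc u * v * (v * u) = u * (v * v) * u := by noncomm_ring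
      _ = 0 := by rw [hvv]; simp
  have hfe : f * e = 0 := by
    rw [he, hf]
    calc v * u * (u * v) = v * (u * u) * v := by noncomm_ring
      _ = 0 := by rw [huu]; simp
  have hsum : e + f = 1 := by
    have hρs : ρA (e + f) = 1 := by
      rw [map_add, hρe, hρf]
      ext i j; fin_cases i <;> fin_cases j <;> simp
    have h1 := h.cayley_hamilton (e + f)
    rw [hρs, Matrix.trace_one, Matrix.det_one] at h1
    have h2 : (e + f) * (e + f) = e + f := by
      rw [add_mul, mul_add, mul_add, hee, hff, hef, hfe]; abel
    rw [h2] at h1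
    simp only [Fintype.card_fin, Nat.cast_ofNat, one_smul] at h1
    have h3 : (2 : R) • (e + f) = (e + f) + (e + f) := by rw [two_smul]
    rw [h3] at h1
    have : e + f - 1 = (e + f + (e + f) - 1) - (e + f) := by abel
    rw [← sub_eq_zero, this, ← h1, sub_self]
  have hse : starA ρA e = f := by
    rw [starA_apply, hρe]
    have : (!![1, 0; 0, 0] : Matrix (Fin 2) (Fin 2) R).trace = 1 := by simp [Matrix.trace_fin_two]
    rw [this, map_one, ← hsum]; abel
  have hsf : starA ρA f = e := by
    rw [← hse, starA_starA]
  -- Peirce components of kernel elements vanish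
  have claim1 : ∀ a : A, ρA a = 0 → e * a * e = 0 := by
    intro a ha
    have hx : ρA (e * a * e) = 0 := by rw [map_mul, map_mul, ha]; simp
    have h1 : starA ρA (e * a * e) = -(e * a * e) := starA_of_ker ρA hx
    have h2 : starA ρA (e * a * e) = -(f * a * f) := by
      rw [h.starA_mul, h.starA_mul, hse, starA_of_ker ρA ha]; noncomm_ring
    have h3 : e * a * e = f * a * f := by
      have := h1.symm.trans h2
      exact neg_injective this
    calc e * a * e = e * (e * a * e) := by rw [← mul_assoc, ← mul_assoc, hee]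
      _ = e * (f * a * f) := by rw [h3]
      _ = (e * f) * a * f := by noncomm_ring
      _ = 0 := by rw [hef]; simp
  have claim1' : ∀ a : A, ρA a = 0 → f * a * f = 0 := by
    intro a ha
    have hx : ρA (f * a * f) = 0 := by rw [map_mul, map_mul, ha]; simp
    have h1 : starA ρA (f * a * f) = -(f * a * f) := starA_of_ker ρA hx
    have h2 : starA ρA (f * a * f) = -(e * a * e) := by
      rw [h.starA_mul, h.starA_mul, hsf, starA_of_ker ρA ha]; noncomm_ring
    have h3 : f * a * f = e * a * e := neg_injective (h1.symm.trans h2)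
    rw [h3, claim1 a ha]
  have hfv : f * v = v * e := by rw [he, hf]; noncomm_ring
  have heu : e * u = u * f := by rw [he, hf]; noncomm_ring
  have claim2 : ∀ a : A, ρA a = 0 → e * a * f = 0 := by
    intro a ha
    have hav : ρA (a * v) = 0 := by rw [map_mul, ha, zero_mul]
    have h1 : e * a * f * v = 0 := by
      calc e * a * f * v = e * a * (f * v) := by noncomm_ring
        _ = e * (a * v) * e := by rw [hfv]; noncomm_ring
        _ = 0 := claim1 _ hav
    calc e * a * f = e * a * (f * f) := by rw [hff]
      _ = (e * a * f * v) * u := by rw [hf]; noncomm_ring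
      _ = 0 := by rw [h1, zero_mul]
  have claim3 : ∀ a : A, ρA a = 0 → f * a * e = 0 := by
    intro a ha
    have hau : ρA (a * u) = 0 := by rw [map_mul, ha, zero_mul]
    have h1 : f * a * e * u = 0 := by
      calc f * a * e * u = f * a * (e * u) := by noncomm_ring
        _ = f * (a * u) * f := by rw [heu]; noncomm_ring
        _ = 0 := claim1' _ hau
    calc f * a * e = f * a * (e * e) := by rw [hee]
      _ = (f * a * e * u) * v := by rw [he]; noncomm_ring
      _ = 0 := by rw [h1, zero_mul]
  intro a ha
  calc a = (e + f) * a * (e + f) := by rw [hsum, one_mul, mul_one]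
    _ = e * a * e + e * a * f + f * a * e + f * a * f := by noncomm_ring
    _ = 0 := by rw [claim1 a ha, claim2 a ha, claim3 a ha, claim1' a ha]; simp

end BLRData

end BLR

end Fermat.Agent.FF2.S32
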