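import Fermat.Agent.FF2.S32.Factor

/-!
# FF2 / S32 : BLR, algebra form

`ρ : G →* M₂(R)` with `R[G] → M₂(R)` surjective, `C` any `R`-algebra (not necessarily commutative)
with a monoid map `α : G →* C` such that every `α g` satisfies the characteristic polynomial of
`ρ g`.  Then there is an `R`-algebra map `β : M₂(R) → C` with `β (ρ g) = α g`.
(Apply the module form to `C` acting on itself by left multiplication.)
-/

namespace Fermat.Agent.FF2.S32

open Matrix

variable {R G C : Type*} [CommRing R] [Group G] [Ring C] [Algebra R C]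
  (ρ : G →* Matrix (Fin 2) (Fin 2) R) (α : G →* C)

/-- The linear extension of `α : G →* C` to the group algebra. -/
noncomputable def algLin : MonoidAlgebra R G →ₐ[R] C :=
  MonoidAlgebra.lift R C G α

@[simp] theorem algLin_of (g : G) : algLin (R := R) α (MonoidAlgebra.of R G g) = α g := by
  simp [algLin]

/-- `α` followed by left multiplication. -/
noncomputable def lmulHom : G →* Module.End R C :=
  ((Algebra.lmul R C : C →ₐ[R] Module.End R C) : C →* Module.End R C).comp α

theorem lmulHom_apply (g : G) (c : C) : lmulHom (R := R) α g c = α g * c := rfl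

theorem alphaLin_lmulHom (a : MonoidAlgebra R G) :
    alphaLin (lmulHom (R := R) α) a = Algebra.lmul R C (algLin (R := R) α a) := by
  induction a using MonoidAlgebra.induction_on with
  | of g => rw [alphaLin_of, algLin_of]; rfl
  | add b c hb hc => rw [map_add, map_add, map_add, hb, hc]
  | smul r b hb => rw [map_smul, map_smul, map_smul, hb]

/-- **BLR, algebra form**: the kernel statement. -/
theorem blr_algebra (hsurj : Function.Surjective (rhoLin ρ))
    (hch : ∀ g : G, α g * α g = (ρ g).trace • α g - (ρ g).det • (1 : C))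
    (a : MonoidAlgebra R G) (ha : rhoLin ρ a = 0) : algLin (R := R) α a = 0 := by
  have hch' : ∀ g : G, lmulHom (R := R) α g * lmulHom (R := R) α g
      = (ρ g).trace • lmulHom (R := R) α g - (ρ g).det • (1 : Module.End R C) := by
    intro g
    ext c
    simp only [Module.End.mul_apply, lmulHom_apply, LinearMap.sub_apply, LinearMap.smul_apply,
      Module.End.one_apply]
    rw [← mul_assoc, hch g, sub_mul, smul_mul_assoc, smul_mul_assoc, one_mul]
  have h := blr_module ρ (lmulHom (R := R) α) hsurj hch' a ha
  rw [alphaLin_lmulHom] at h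
  have h1 := congrArg (fun f : Module.End R C => f 1) h
  simpa using h1

/-- The algebra map `M₂(R) → C` provided by BLR. -/
noncomputable def blrAlgHom (hsurj : Function.Surjective (rhoLin ρ))
    (hch : ∀ g : G, α g * α g = (ρ g).trace • α g - (ρ g).det • (1 : C)) :
    Matrix (Fin 2) (Fin 2) R →ₐ[R] C :=
  factorOfSurjective (rhoLin ρ) hsurj (algLin (R := R) α) (blr_algebra ρ α hsurj hch)

theorem blrAlgHom_rhoLin (hsurj : Function.Surjective (rhoLin ρ))
    (hch : ∀ g : G, α g * α g = (ρ g).trace • α g - (ρ g).det • (1 : C))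
    (a : MonoidAlgebra R G) :
    blrAlgHom ρ α hsurj hch (rhoLin ρ a) = algLin (R := R) α a :=
  factorOfSurjective_apply (rhoLin ρ) hsurj (algLin (R := R) α) (blr_algebra ρ α hsurj hch) a

theorem blrAlgHom_rho (hsurj : Function.Surjective (rhoLin ρ))
    (hch : ∀ g : G, α g * α g = (ρ g).trace • α g - (ρ g).det • (1 : C)) (g : G) :
    blrAlgHom ρ α hsurj hch (ρ g) = α g := by
  have h := blrAlgHom_rhoLin ρ α hsurj hch (MonoidAlgebra.of R G g)
  rw [rhoLin_of, algLin_of] at h
  exact h

end Fermat.Agent.FF2.S32
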