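import Fermat.Agent.FF2.S32.BLR

/-!
# FF2 / S32 : BLR, module form

`ρ : G →* M₂(R)` with `R[G] → M₂(R)` surjective, `N` an `R`-module with a `G`-action `α` such that
every `g` satisfies on `N` the characteristic polynomial of `ρ g`.  Then the action of `R[G]` on `N`
factors through `M₂(R)`: an element of `R[G]` killed by `ρ` acts as `0` on `N`
(`blr_module`), and `N` carries a compatible `M₂(R)`-action (`blrModuleHom`).
-/

namespace Fermat.Agent.FF2.S32

open Matrix

variable {R G N : Type*} [CommRing R] [Group G] [AddCommGroup N] [Module R N]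

/-- Cayley–Hamilton for `2 × 2` matrices. -/
theorem matrix_two_ch (M : Matrix (Fin 2) (Fin 2) R) :
    M * M = M.trace • M - M.det • (1 : Matrix (Fin 2) (Fin 2) R) := by
  have h := mul_trace_sub_self M
  rw [mul_sub, Algebra.algebraMap_eq_smul_one, Algebra.algebraMap_eq_smul_one, mul_smul_comm,
    mul_one] at h
  rw [← h]; abel

section

variable (ρ : G →* Matrix (Fin 2) (Fin 2) R) (α : G →* Module.End R N)

/-- The linear extension of `ρ` to the group algebra. -/
noncomputable def rhoLin : MonoidAlgebra R G →ₐ[R] Matrix (Fin 2) (Fin 2) R :=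
  MonoidAlgebra.lift R (Matrix (Fin 2) (Fin 2) R) G ρ

/-- The linear extension of `α` to the group algebra. -/
noncomputable def alphaLin : MonoidAlgebra R G →ₐ[R] Module.End R N :=
  MonoidAlgebra.lift R (Module.End R N) G α

@[simp] theorem rhoLin_of (g : G) : rhoLin ρ (MonoidAlgebra.of R G g) = ρ g := by
  simp [rhoLin]

@[simp] theorem alphaLin_of (g : G) : alphaLin α (MonoidAlgebra.of R G g) = α g := by
  simp [alphaLin]

/-- The product map `R[G] → M₂(R) × End_R(N)`. -/
noncomputable def prodLin : MonoidAlgebra R G →ₐ[R] Matrix (Fin 2) (Fin 2) R × Module.End R N :=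
  (rhoLin ρ).prod (alphaLin α)

/-- The image algebra of `R[G]` in `M₂(R) × End_R(N)`. -/
noncomputable def blrAlg : Subalgebra R (Matrix (Fin 2) (Fin 2) R × Module.End R N) :=
  (prodLin ρ α).range

theorem prodLin_mem (b : MonoidAlgebra R G) : prodLin ρ α b ∈ blrAlg ρ α := ⟨b, rfl⟩

theorem prodLin_of (g : G) : prodLin ρ α (MonoidAlgebra.of R G g) = (ρ g, α g) := by
  rw [prodLin, AlgHom.prod_apply, rhoLin_of, alphaLin_of]

/-- The group elements in `blrAlg`. -/
noncomputable def blrIota : G →* blrAlg ρ α where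
  toFun g := ⟨prodLin ρ α (MonoidAlgebra.of R G g), prodLin_mem ρ α _⟩
  map_one' := by
    apply Subtype.ext
    show prodLin ρ α (MonoidAlgebra.of R G 1) = 1
    rw [map_one, map_one]
  map_mul' g k := by
    apply Subtype.ext
    show prodLin ρ α (MonoidAlgebra.of R G (g * k)) =
      prodLin ρ α (MonoidAlgebra.of R G g) * prodLin ρ α (MonoidAlgebra.of R G k)
    rw [map_mul, map_mul]

theorem blrIota_val (g : G) :
    ((blrIota ρ α g : blrAlg ρ α) : Matrix (Fin 2) (Fin 2) R × Module.End R N) = (ρ g, α g) :=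
  prodLin_of ρ α g

/-- The first projection on `blrAlg`. -/
noncomputable def blrRho : blrAlg ρ α →ₐ[R] Matrix (Fin 2) (Fin 2) R :=
  (AlgHom.fst R (Matrix (Fin 2) (Fin 2) R) (Module.End R N)).comp (blrAlg ρ α).val

theorem blrRho_mk (b : MonoidAlgebra R G) :
    blrRho ρ α ⟨prodLin ρ α b, prodLin_mem ρ α b⟩ = rhoLin ρ b := by
  show (prodLin ρ α b).1 = _
  rw [prodLin, AlgHom.prod_apply]

theorem blrRho_iota (g : G) : blrRho ρ α (blrIota ρ α g) = ρ g := by
  show ((blrIota ρ α g : blrAlg ρ α) : Matrix (Fin 2) (Fin 2) R × Module.End R N).1 = ρ g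
  rw [blrIota_val]

theorem blrData (hsurj : Function.Surjective (rhoLin ρ))
    (hch : ∀ g : G, α g * α g = (ρ g).trace • α g - (ρ g).det • (1 : Module.End R N)) :
    BLRData (blrIota ρ α) (blrRho ρ α) := by
  refine ⟨?_, ?_, ?_⟩
  · rw [eq_top_iff]
    rintro ⟨x, b, rfl⟩ -
    induction b using MonoidAlgebra.induction_on with
    | of g => exact Submodule.subset_span ⟨g, rfl⟩
    | add b c hb hc =>
      have : (⟨prodLin ρ α (b + c), prodLin_mem ρ α _⟩ : blrAlg ρ α)
          = ⟨prodLin ρ α b, prodLin_mem ρ α _⟩ + ⟨prodLin ρ α c, prodLin_mem ρ α _⟩ := by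
        apply Subtype.ext
        show prodLin ρ α (b + c) = prodLin ρ α b + prodLin ρ α c
        rw [map_add]
      exact this ▸ Submodule.add_mem _ hb hc
    | smul r b hb =>
      have : (⟨prodLin ρ α (r • b), prodLin_mem ρ α _⟩ : blrAlg ρ α)
          = r • ⟨prodLin ρ α b, prodLin_mem ρ α _⟩ := by
        apply Subtype.ext
        show prodLin ρ α (r • b) = r • prodLin ρ α b
        rw [map_smul]
      exact this ▸ Submodule.smul_mem _ _ hb
  · intro M
    obtain ⟨b, hb⟩ := hsurj M
    exact ⟨⟨prodLin ρ α b, prodLin_mem ρ α b⟩, (blrRho_mk ρ α b).trans hb⟩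
  · intro g
    apply Subtype.ext
    rw [blrRho_iota]
    simp only [Subalgebra.coe_mul, Subalgebra.coe_sub, Subalgebra.coe_smul, Subalgebra.coe_one,
      blrIota_val]
    ext1
    · exact matrix_two_ch (ρ g)
    · exact hch g

/-- **BLR, module form.** -/
theorem blr_module (hsurj : Function.Surjective (rhoLin ρ))
    (hch : ∀ g : G, α g * α g = (ρ g).trace • α g - (ρ g).det • (1 : Module.End R N))
    (a : MonoidAlgebra R G) (ha : rhoLin ρ a = 0) : alphaLin α a = 0 := by
  have hinj := (blrData ρ α hsurj hch).injective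
  have h0 : (⟨prodLin ρ α a, prodLin_mem ρ α a⟩ : blrAlg ρ α) = 0 := by
    apply hinj
    rw [blrRho_mk, ha, map_zero]
  have h1 : prodLin ρ α a = 0 := congrArg Subtype.val h0
  have h2 : (prodLin ρ α a).2 = alphaLin α a := by
    rw [prodLin, AlgHom.prod_apply]
  rw [← h2, h1]; rfl

end

end Fermat.Agent.FF2.S32
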