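import Mathlib

/-!
# FF2 / S32 : Morita for `M₂(R)`, explicit form

`R` a commutative ring, `N` an `R`-module with an `R`-algebra map `β : M₂(R) → End_R(N)`.
`P := range β(E₁₁)`.  Then `Θ : N ≃ₗ[R] P × P`, `n ↦ (E₁₁ n, E₁₂ n)`, inverse
`(p, q) ↦ p + E₂₁ q`, and `β(M)` acts on `P × P` as the matrix `M` (`morita_apply`).
-/

namespace Fermat.Agent.FF2.S32

open Matrix

variable {R N : Type*} [CommRing R] [AddCommGroup N] [Module R N]
  (β : Matrix (Fin 2) (Fin 2) R →ₐ[R] Module.End R N)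

/-- The matrix units. -/
abbrev E (i j : Fin 2) : Matrix (Fin 2) (Fin 2) R := Matrix.single i j (1 : R)

theorem E_mul_E (i j k l : Fin 2) :
    (E i j : Matrix (Fin 2) (Fin 2) R) * E k l = if j = k then E i l else 0 := by
  by_cases h : j = k
  · subst h; simp [E]
  · simp [E, h]

theorem E_sum : (E 0 0 : Matrix (Fin 2) (Fin 2) R) + E 1 1 = 1 := by
  ext i j; fin_cases i <;> fin_cases j <;> simp [E]

theorem matrix_eq_sum_E (M : Matrix (Fin 2) (Fin 2) R) :
    M = M 0 0 • E 0 0 + M 0 1 • E 0 1 + M 1 0 • E 1 0 + M 1 1 • E 1 1 := by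
  ext i j; fin_cases i <;> fin_cases j <;> simp [E]

/-- The module `P = E₁₁ N`. -/
def moritaP : Submodule R N := LinearMap.range (β (E 0 0))

theorem mem_moritaP_iff {n : N} : n ∈ moritaP β ↔ β (E 0 0) n = n := by
  constructor
  · rintro ⟨m, rfl⟩
    rw [← Module.End.mul_apply, ← map_mul, E_mul_E, if_pos rfl]
  · intro h; exact ⟨n, h⟩

theorem E00_mem (n : N) : β (E 0 0) n ∈ moritaP β := ⟨n, rfl⟩

theorem E01_mem (n : N) : β (E 0 1) n ∈ moritaP β := by
  rw [mem_moritaP_iff, ← Module.End.mul_apply, ← map_mul, E_mul_E, if_pos rfl]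

theorem beta_E_E (i j k l : Fin 2) (n : N) :
    β (E i j) (β (E k l) n) = if j = k then β (E i l) n else 0 := by
  rw [← Module.End.mul_apply, ← map_mul, E_mul_E]
  split_ifs <;> simp

/-- The Morita equivalence `N ≃ P × P`. -/
def moritaEquiv : N ≃ₗ[R] (moritaP β × moritaP β) where
  toFun n := (⟨β (E 0 0) n, E00_mem β n⟩, ⟨β (E 0 1) n, E01_mem β n⟩)
  map_add' a b := by ext <;> simp
  map_smul' r a := by ext <;> simp
  invFun pq := (pq.1 : N) + β (E 1 0) (pq.2 : N)
  left_inv n := by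
    show β (E 0 0) n + β (E 1 0) (β (E 0 1) n) = n
    rw [beta_E_E, if_pos rfl, ← LinearMap.add_apply, ← map_add, E_sum, map_one]
    rfl
  right_inv pq := by
    obtain ⟨⟨p, hp⟩, ⟨q, hq⟩⟩ := pq
    rw [mem_moritaP_iff] at hp hq
    apply Prod.ext <;> apply Subtype.ext
    · show β (E 0 0) (p + β (E 1 0) q) = p
      rw [map_add, hp, beta_E_E, if_neg (by decide), add_zero]
    · show β (E 0 1) (p + β (E 1 0) q) = q
      rw [map_add, beta_E_E, if_pos rfl, hq, ← hp, beta_E_E, if_neg (by decide), zero_add]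

theorem moritaEquiv_apply_fst (n : N) : ((moritaEquiv β n).1 : N) = β (E 0 0) n := rfl

theorem moritaEquiv_apply_snd (n : N) : ((moritaEquiv β n).2 : N) = β (E 0 1) n := rfl

theorem moritaEquiv_symm_apply (p q : moritaP β) :
    (moritaEquiv β).symm (p, q) = (p : N) + β (E 1 0) (q : N) := rfl

/-- `β M` acts on `P × P` as the matrix `M`. -/
theorem morita_apply (M : Matrix (Fin 2) (Fin 2) R) (n : N) :
    moritaEquiv β (β M n) =
      (M 0 0 • (moritaEquiv β n).1 + M 0 1 • (moritaEquiv β n).2,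
       M 1 0 • (moritaEquiv β n).1 + M 1 1 • (moritaEquiv β n).2) := by
  have hM := matrix_eq_sum_E M
  apply Prod.ext <;> apply Subtype.ext
  · show β (E 0 0) (β M n) = M 0 0 • β (E 0 0) n + M 0 1 • β (E 0 1) n
    rw [← Module.End.mul_apply, ← map_mul]
    have : (E 0 0 : Matrix (Fin 2) (Fin 2) R) * M = M 0 0 • E 0 0 + M 0 1 • E 0 1 := by
      conv_lhs => rw [hM]
      simp only [mul_add, mul_smul_comm, E_mul_E]
      simp
    rw [this, map_add, map_smul, map_smul]
    rfl
  · show β (E 0 1) (β M n) = M 1 0 • β (E 0 0) n + M 1 1 • β (E 0 1) n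
    rw [← Module.End.mul_apply, ← map_mul]
    have : (E 0 1 : Matrix (Fin 2) (Fin 2) R) * M = M 1 0 • E 0 0 + M 1 1 • E 0 1 := by
      conv_lhs => rw [hM]
      simp only [mul_add, mul_smul_comm, E_mul_E]
      simp
    rw [this, map_add, map_smul, map_smul]
    rfl

/-- `P` is faithful if `N` is. -/
theorem moritaP_faithful (hN : ∀ r : R, (∀ n : N, r • n = 0) → r = 0) (r : R)
    (hr : ∀ p : moritaP β, r • p = 0) : r = 0 := by
  refine hN r fun n => ?_
  apply (moritaEquiv β).injective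
  rw [map_smul, map_zero]
  apply Prod.ext
  · exact hr _
  · exact hr _

end Fermat.Agent.FF2.S32
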