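import Fermat.Agent.FF2.S32.Factor
import Fermat.Agent.FF2.S32.Morita

/-!
# FF2 / S32 : Carayol's lemma in module form (via BLR + Morita)

`A` a local ring, `ρ : G →* M₂(A)` with `A[G] → M₂(A)` onto, `N` a free `A`-module of rank two with
an action `α : G →* End_A(N)` such that every `α g` satisfies the characteristic polynomial of
`ρ g`.  Then `N ≅ ρ` : there is an `A`-linear isomorphism `e : N ≃ A²` with
`e (α g n) = ρ g *ᵥ e n`.

No computation of traces is needed: BLR makes `N` an `M₂(A)`-module through `ρ`, Morita gives
`N ≅ P × P` with `P = E₁₁ N` a direct summand of `N`, hence projective, hence free (local ring),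
of rank one.
-/

namespace Fermat.Agent.FF2.S32

open Matrix

section MoritaFree

variable {A N : Type*} [CommRing A] [IsLocalRing A] [AddCommGroup N] [Module A N]
  [Module.Free A N] [Module.Finite A N]
  (β : Matrix (Fin 2) (Fin 2) A →ₐ[A] Module.End A N)

instance moritaP_finite : Module.Finite A (moritaP β) :=
  inferInstanceAs (Module.Finite A (LinearMap.range (β (E 0 0))))

theorem moritaP_projective : Module.Projective A (moritaP β) := by
  refine Module.Projective.of_split (M := N) (moritaP β).subtype
    ((β (E 0 0)).rangeRestrict) ?_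
  ext p
  have hp := (mem_moritaP_iff β).1 p.2
  show (β (E 0 0)) (p : N) = (p : N)
  exact hp

theorem moritaP_free : Module.Free A (moritaP β) := by
  have := moritaP_projective β
  exact Module.free_of_flat_of_isLocalRing

theorem moritaP_finrank (hN : Module.finrank A N = 2) : Module.finrank A (moritaP β) = 1 := by
  have := moritaP_free β
  have h1 := (moritaEquiv β).finrank_eq
  rw [Module.finrank_prod, hN] at h1
  omega

/-- `P = E₁₁ N` is free of rank one. -/
theorem moritaP_equiv (hN : Module.finrank A N = 2) : Nonempty (moritaP β ≃ₗ[A] A) := by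
  have := moritaP_free β
  have h := moritaP_finrank β hN
  exact ⟨(Module.finBasisOfFinrankEq A (moritaP β) h).equivFun.trans
    (LinearEquiv.funUnique (Fin 1) A A)⟩

end MoritaFree

section Carayol

variable {A G N : Type*} [CommRing A] [IsLocalRing A] [Group G] [AddCommGroup N] [Module A N]
  [Module.Free A N] [Module.Finite A N]

/-- **Carayol's lemma, module form.** -/
theorem carayol_module (ρ : G →* Matrix (Fin 2) (Fin 2) A) (α : G →* Module.End A N)
    (hsurj : Function.Surjective (rhoLin ρ))
    (hch : ∀ g : G, α g * α g = (ρ g).trace • α g - (ρ g).det • (1 : Module.End A N))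
    (hN : Module.finrank A N = 2) :
    ∃ e : N ≃ₗ[A] (Fin 2 → A), ∀ g n, e (α g n) = (ρ g).mulVec (e n) := by
  set β := blrModuleHom ρ α hsurj hch with hβ
  obtain ⟨c⟩ := moritaP_equiv β hN
  refine ⟨(moritaEquiv β).trans ((c.prodCongr c).trans (LinearEquiv.finTwoArrow A A).symm), ?_⟩
  intro g n
  have h1 : α g n = β (ρ g) n := by rw [hβ, blrModuleHom_rho]
  rw [h1]
  simp only [LinearEquiv.trans_apply, morita_apply]
  ext i
  fin_cases i <;>
    simp [Matrix.mulVec, dotProduct, Fin.sum_univ_two, LinearEquiv.finTwoArrow]
  
end Carayol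

end Fermat.Agent.FF2.S32
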