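import Fermat.Agent.FF2.S32.BLRModule

/-!
# FF2 / S32 : factoring through a surjective algebra map; the `M₂(R)`-module structure from BLR

* `AlgHom.factorOfSurjective` : `f : A →ₐ[R] B` surjective, `g : A →ₐ[R] C` killing `ker f`
  (noncommutative rings allowed) ⇒ `h : B →ₐ[R] C` with `h ∘ f = g`.
* `blrModuleHom` : in the situation of `blr_module`, the algebra map
  `β : M₂(R) →ₐ[R] End_R(N)` with `β (ρ g) = α g`.
-/

namespace Fermat.Agent.FF2.S32

section Factor

variable {R A B C : Type*} [CommRing R] [Ring A] [Ring B] [Ring C] [Algebra R A] [Algebra R B]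
  [Algebra R C]

/-- Factor an algebra map through a surjective one (noncommutative rings allowed). -/
noncomputable def factorOfSurjective (f : A →ₐ[R] B) (hf : Function.Surjective f)
    (g : A →ₐ[R] C) (hker : ∀ a, f a = 0 → g a = 0) : B →ₐ[R] C :=
  have key : ∀ a a' : A, f a = f a' → g a = g a' := fun a a' h => by
    have : g (a - a') = 0 := hker _ (by rw [map_sub, h, sub_self])
    rwa [map_sub, sub_eq_zero] at this
  { toFun := fun b => g (Classical.choose (hf b))
    map_one' := by
      rw [← map_one g]
      exact key _ _ (by rw [Classical.choose_spec (hf 1), map_one])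
    map_mul' := fun b b' => by
      rw [← map_mul g]
      exact key _ _ (by
        rw [Classical.choose_spec (hf (b * b')), map_mul, Classical.choose_spec (hf b),
          Classical.choose_spec (hf b')])
    map_zero' := by
      rw [← map_zero g]
      exact key _ _ (by rw [Classical.choose_spec (hf 0), map_zero])
    map_add' := fun b b' => by
      rw [← map_add g]
      exact key _ _ (by
        rw [Classical.choose_spec (hf (b + b')), map_add, Classical.choose_spec (hf b),
          Classical.choose_spec (hf b')])
    commutes' := fun r => by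
      rw [← AlgHom.commutes g r]
      exact key _ _ (by rw [Classical.choose_spec (hf _), AlgHom.commutes]) }

theorem factorOfSurjective_apply (f : A →ₐ[R] B) (hf : Function.Surjective f)
    (g : A →ₐ[R] C) (hker : ∀ a, f a = 0 → g a = 0) (a : A) :
    factorOfSurjective f hf g hker (f a) = g a := by
  have key : ∀ a a' : A, f a = f a' → g a = g a' := fun a a' h => by
    have : g (a - a') = 0 := hker _ (by rw [map_sub, h, sub_self])
    rwa [map_sub, sub_eq_zero] at this
  exact key _ _ (Classical.choose_spec (hf (f a)))

end Factor

section BLRHom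

open Matrix

variable {R G N : Type*} [CommRing R] [Group G] [AddCommGroup N] [Module R N]
  (ρ : G →* Matrix (Fin 2) (Fin 2) R) (α : G →* Module.End R N)

/-- The `M₂(R)`-module structure on `N` provided by the BLR theorem. -/
noncomputable def blrModuleHom (hsurj : Function.Surjective (rhoLin ρ))
    (hch : ∀ g : G, α g * α g = (ρ g).trace • α g - (ρ g).det • (1 : Module.End R N)) :
    Matrix (Fin 2) (Fin 2) R →ₐ[R] Module.End R N :=
  factorOfSurjective (rhoLin ρ) hsurj (alphaLin α) (blr_module ρ α hsurj hch)

theorem blrModuleHom_rho (hsurj : Function.Surjective (rhoLin ρ))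
    (hch : ∀ g : G, α g * α g = (ρ g).trace • α g - (ρ g).det • (1 : Module.End R N)) (g : G) :
    blrModuleHom ρ α hsurj hch (ρ g) = α g := by
  have h := factorOfSurjective_apply (rhoLin ρ) hsurj (alphaLin α) (blr_module ρ α hsurj hch)
    (MonoidAlgebra.of R G g)
  rw [rhoLin_of, alphaLin_of] at h
  exact h

end BLRHom

end Fermat.Agent.FF2.S32
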