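import Mathlib

/-!
# FF2 / S32 : lifting `2 × 2` matrix units along a ring map with nil kernel

`π : E →+* S` a ring homomorphism (noncommutative rings) whose kernel consists of nilpotent
elements.  If `x₁₁, x₁₂, x₂₁ ∈ E` become matrix units in `S`, then there are genuine matrix units
`e, u, v ∈ E` (`e² = e`, `u ∈ e E (1-e)`, `v ∈ (1-e) E e`, `uv = e`, `vu = 1 - e`) with the same
images.
-/

namespace Fermat.Agent.FF2.S32

variable {E S : Type*} [Ring E] [Ring S]

theorem sub_idem_aux {f z : E} (h1 : f * f = f) (h2 : f * z = z) (h3 : z * f = z)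
    (h4 : z * z = z) : IsIdempotentElem (f - z) := by
  show (f - z) * (f - z) = f - z
  rw [sub_mul, mul_sub, mul_sub, h1, h2, h3, h4]
  abel

theorem lift_matrix_units (π : E →+* S) (hπ : ∀ x ∈ RingHom.ker π, IsNilpotent x)
    (x11 x12 x21 : E)
    (h11 : π x11 * π x11 = π x11)
    (h12a : π x11 * π x12 = π x12) (h12b : π x12 * π x11 = 0)
    (h21a : π x21 * π x11 = π x21) (h21b : π x11 * π x21 = 0)
    (huv : π x12 * π x21 = π x11) (hvu : π x21 * π x12 = 1 - π x11) :
    ∃ e u v : E, e * e = e ∧ e * u = u ∧ u * e = 0 ∧ v * e = v ∧ e * v = 0 ∧ u * v = e ∧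
      v * u = 1 - e ∧ π e = π x11 ∧ π u = π x12 ∧ π v = π x21 := by
  obtain ⟨e, he, hπe⟩ := exists_isIdempotentElem_eq_of_ker_isNilpotent π hπ (π x11) ⟨x11, rfl⟩ h11
  have hee : e * e = e := he
  have he1 : e * (1 - e) = 0 := by rw [mul_sub, mul_one, hee, sub_self]
  have h1e : (1 - e) * e = 0 := by rw [sub_mul, one_mul, hee, sub_self]
  set u : E := e * x12 * (1 - e) with hu
  set v0 : E := (1 - e) * x21 * e with hv0
  have heu : e * u = u := by rw [hu, ← mul_assoc, ← mul_assoc, hee]
  have hue : u * e = 0 := by rw [hu, mul_assoc, h1e, mul_zero]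
  have hv0e : v0 * e = v0 := by rw [hv0, mul_assoc, hee]
  have hev0 : e * v0 = 0 := by rw [hv0, ← mul_assoc, ← mul_assoc, he1, zero_mul, zero_mul]
  have hπu : π u = π x12 := by
    rw [hu, map_mul, map_mul, map_sub, map_one, hπe, h12a, mul_sub, mul_one, h12b, sub_zero]
  have hπv0 : π v0 = π x21 := by
    rw [hv0, map_mul, map_mul, map_sub, map_one, hπe, mul_assoc, h21a, sub_mul, one_mul, h21b,
      sub_zero]
  -- the error term
  set n : E := e - u * v0 with hn
  have hπn : π n = 0 := by rw [hn, map_sub, map_mul, hπu, hπv0, huv, hπe, sub_self]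
  have hnil : IsNilpotent n := hπ n hπn
  have hen : e * n = n := by rw [hn, mul_sub, hee, ← mul_assoc, heu]
  have hne : n * e = n := by rw [hn, sub_mul, hee, mul_assoc, hv0e]
  obtain ⟨w, hw⟩ := hnil.isUnit_one_sub
  set y : E := ((w⁻¹ : Eˣ) : E) with hy
  have hwy : (1 - n) * y = 1 := by rw [← hw, hy]; exact w.mul_inv
  have hyw : y * (1 - n) = 1 := by rw [← hw, hy]; exact w.inv_mul
  have hcomm : e * (1 - n) = (1 - n) * e := by
    rw [mul_sub, mul_one, sub_mul, one_mul, hen, hne]
  have hye : y * e = e * y := by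
    calc y * e = y * e * ((1 - n) * y) := by rw [hwy, mul_one]
      _ = y * (e * (1 - n)) * y := by simp only [mul_assoc]
      _ = y * ((1 - n) * e) * y := by rw [hcomm]
      _ = (y * (1 - n)) * e * y := by simp only [mul_assoc]
      _ = e * y := by rw [hyw, one_mul]
  have hπy : π y = 1 := by
    have h1 : π ((1 - n) * y) = 1 := by rw [hwy, map_one]
    rwa [map_mul, map_sub, map_one, hπn, sub_zero, one_mul] at h1
  set v : E := v0 * y with hv
  have huv' : u * v = e := by
    rw [hv, ← mul_assoc]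
    have : u * v0 = e * (1 - n) := by
      rw [mul_sub, mul_one, hen, hn]; abel
    rw [this, mul_assoc, hwy, mul_one]
  have hve : v * e = v := by rw [hv, mul_assoc, hye, ← mul_assoc, hv0e]
  have hev : e * v = 0 := by rw [hv, ← mul_assoc, hev0, zero_mul]
  have hπv : π v = π x21 := by rw [hv, map_mul, hπy, mul_one, hπv0]
  -- `v u = 1 - e`
  have hidem : IsIdempotentElem ((1 - e) - v * u) := by
    have h1 : (1 - e) * (1 - e) = 1 - e := by rw [mul_sub, mul_one, h1e, sub_zero]
    have h2 : (1 - e) * (v * u) = v * u := by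
      rw [← mul_assoc, sub_mul, one_mul, hev, sub_zero]
    have h3 : (v * u) * (1 - e) = v * u := by
      rw [mul_assoc, mul_sub, mul_one, hue, sub_zero]
    have h4 : (v * u) * (v * u) = v * u := by
      calc (v * u) * (v * u) = v * (u * v) * u := by simp only [mul_assoc]
        _ = v * u := by rw [huv', hve]
    exact sub_idem_aux h1 h2 h3 h4
  have hker : ((1 - e) - v * u) ∈ RingHom.ker π := by
    rw [RingHom.mem_ker, map_sub, map_sub, map_one, map_mul, hπv, hπu, hvu, hπe, sub_self]
  have hz := hidem.eq_zero_of_isNilpotent (hπ _ hker)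
  have hvu' : v * u = 1 - e := (sub_eq_zero.1 hz).symm
  exact ⟨e, u, v, hee, heu, hue, hve, hev, huv', hvu', hπe, hπu, hπv⟩

end Fermat.Agent.FF2.S32
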