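import Mathlib

/-!
# FF2 / S32 : an algebra map `M₂(R) → E` from a system of `2 × 2` matrix units in `E`
-/

namespace Fermat.Agent.FF2.S32

open Matrix

variable {R E : Type*} [CommRing R] [Ring E] [Algebra R E]

/-- The family of matrix units built from `e, u, v`. -/
def unitFamily (e u v : E) : Fin 2 → Fin 2 → E := ![![e, u], ![v, 1 - e]]

section

variable {e u v : E} (hee : e * e = e) (heu : e * u = u) (hue : u * e = 0) (hve : v * e = v)
  (hev : e * v = 0) (huv : u * v = e) (hvu : v * u = 1 - e)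

include hee heu hue hve hev huv hvu in
theorem unitFamily_mul (i j k l : Fin 2) :
    unitFamily e u v i j * unitFamily e u v k l = if j = k then unitFamily e u v i l else 0 := by
  have he1 : e * (1 - e) = 0 := by rw [mul_sub, mul_one, hee, sub_self]
  have h1e : (1 - e) * e = 0 := by rw [sub_mul, one_mul, hee, sub_self]
  have h11 : (1 - e) * (1 - e) = 1 - e := by rw [mul_sub, mul_one, h1e, sub_zero]
  have huu : u * u = 0 := by
    calc u * u = u * (e * u) := by rw [heu]
      _ = 0 := by rw [← mul_assoc, hue, zero_mul]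
  have hvv : v * v = 0 := by
    calc v * v = (v * e) * v := by rw [hve]
      _ = 0 := by rw [mul_assoc, hev, mul_zero]
  have hu1 : u * (1 - e) = u := by rw [mul_sub, mul_one, hue, sub_zero]
  have h1u : (1 - e) * u = 0 := by rw [sub_mul, one_mul, heu, sub_self]
  have h1v : (1 - e) * v = v := by rw [sub_mul, one_mul, hev, sub_zero]
  have hv1 : v * (1 - e) = 0 := by rw [mul_sub, mul_one, hve, sub_self]
  fin_cases i <;> fin_cases j <;> fin_cases k <;> fin_cases l <;>
    simp [unitFamily, hee, heu, hue, hve, hev, huv, hvu, he1, h1e, h11, huu, hvv, hu1, h1u, h1v,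
      hv1]

theorem unitFamily_sum : unitFamily e u v 0 0 + unitFamily e u v 1 1 = 1 := by
  simp [unitFamily]

end

section Hom

variable (U : Fin 2 → Fin 2 → E)

/-- The linear map `m ↦ ∑ mᵢⱼ Uᵢⱼ`. -/
def unitsLin : Matrix (Fin 2) (Fin 2) R →ₗ[R] E where
  toFun m := ∑ i, ∑ j, m i j • U i j
  map_add' m n := by simp [add_smul, Finset.sum_add_distrib]
  map_smul' r m := by simp [mul_smul]

theorem unitsLin_apply (m : Matrix (Fin 2) (Fin 2) R) :
    unitsLin U m = m 0 0 • U 0 0 + m 0 1 • U 0 1 + (m 1 0 • U 1 0 + m 1 1 • U 1 1) := by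
  simp [unitsLin, Fin.sum_univ_two]

variable (hU : ∀ i j k l, U i j * U k l = if j = k then U i l else 0) (h1 : U 0 0 + U 1 1 = 1)

include hU in
theorem unitsLin_mul (m n : Matrix (Fin 2) (Fin 2) R) :
    unitsLin U (m * n) = unitsLin U m * unitsLin U n := by
  rw [unitsLin_apply, unitsLin_apply, unitsLin_apply]
  simp only [Matrix.mul_apply, Fin.sum_univ_two, add_mul, mul_add, smul_mul_smul_comm, hU]
  simp only [Fin.isValue, if_true, zero_ne_one, one_ne_zero, if_false, smul_zero, add_zero,
    zero_add, add_smul]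
  abel

include h1 in
theorem unitsLin_one : unitsLin U (1 : Matrix (Fin 2) (Fin 2) R) = 1 := by
  rw [unitsLin_apply]
  simp [h1]

/-- The algebra map `M₂(R) → E` attached to a family of matrix units. -/
def unitsHom : Matrix (Fin 2) (Fin 2) R →ₐ[R] E :=
  AlgHom.ofLinearMap (unitsLin U) (unitsLin_one U h1) (unitsLin_mul U hU)

theorem unitsHom_apply (m : Matrix (Fin 2) (Fin 2) R) :
    unitsHom U hU h1 m = m 0 0 • U 0 0 + m 0 1 • U 0 1 + (m 1 0 • U 1 0 + m 1 1 • U 1 1) :=
  unitsLin_apply U m

theorem unitsHom_single (i j : Fin 2) :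
    unitsHom (R := R) U hU h1 (Matrix.single i j 1) = U i j := by
  rw [unitsHom_apply]
  fin_cases i <;> fin_cases j <;> simp

end Hom

end Fermat.Agent.FF2.S32
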