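import Mathlib

/-!
# FF2 / S32 : the ideal `𝔫E` of an `R`-algebra `E`, and Nakayama for a nilpotent ideal

* `smulIdeal 𝔫 E : Ideal E` with carrier `𝔫 • ⊤` (an `R`-submodule of `E`), a two-sided ideal;
  if `𝔫 ^ c = ⊥` all its elements are nilpotent.
* `le_of_le_sup_smul` : `N ≤ N' ⊔ 𝔫 • N` and `𝔫 ^ c = ⊥` imply `N ≤ N'`.
-/

namespace Fermat.Agent.FF2.S32

section Nakayama

variable {R M : Type*} [CommRing R] [AddCommGroup M] [Module R M]

theorem le_sup_pow_smul (𝔫 : Ideal R) (N N' : Submodule R M) (h : N ≤ N' ⊔ 𝔫 • N) (j : ℕ) :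
    N ≤ N' ⊔ (𝔫 ^ j) • N := by
  induction j with
  | zero => rw [pow_zero, Ideal.one_eq_top, Submodule.top_smul]; exact le_sup_right
  | succ j ih =>
    refine h.trans (sup_le le_sup_left ?_)
    calc 𝔫 • N ≤ 𝔫 • (N' ⊔ (𝔫 ^ j) • N) := Submodule.smul_mono le_rfl ih
      _ = 𝔫 • N' ⊔ 𝔫 • ((𝔫 ^ j) • N) := Submodule.smul_sup _ _ _
      _ ≤ N' ⊔ (𝔫 ^ (j + 1)) • N := by
        refine sup_le_sup Submodule.smul_le_right ?_
        rw [← Submodule.mul_smul, pow_succ']

/-- Nakayama's lemma for a nilpotent ideal (no finiteness needed). -/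
theorem le_of_le_sup_smul (𝔫 : Ideal R) {c : ℕ} (hc : 𝔫 ^ c = ⊥) (N N' : Submodule R M)
    (h : N ≤ N' ⊔ 𝔫 • N) : N ≤ N' := by
  have := le_sup_pow_smul 𝔫 N N' h c
  rwa [hc, Submodule.bot_smul, sup_bot_eq] at this

end Nakayama

section SmulIdeal

variable {R : Type*} [CommRing R] (𝔫 : Ideal R) (E : Type*) [Ring E] [Algebra R E]

/-- `𝔫E` as a left ideal of `E`. -/
def smulIdeal : Ideal E where
  carrier := (𝔫 • (⊤ : Submodule R E) : Submodule R E)
  add_mem' ha hb := Submodule.add_mem _ ha hb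
  zero_mem' := Submodule.zero_mem _
  smul_mem' y x hx := by
    show y * x ∈ (𝔫 • (⊤ : Submodule R E) : Submodule R E)
    refine Submodule.smul_induction_on (p := fun x => y * x ∈ 𝔫 • (⊤ : Submodule R E)) hx ?_ ?_
    · intro r hr z _
      rw [mul_smul_comm]
      exact Submodule.smul_mem_smul hr Submodule.mem_top
    · intro a b ha hb
      rw [mul_add]
      exact Submodule.add_mem _ ha hb

variable {E}

theorem mem_smulIdeal_iff {x : E} :
    x ∈ smulIdeal 𝔫 E ↔ x ∈ (𝔫 • (⊤ : Submodule R E) : Submodule R E) := Iff.rfl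

theorem mul_mem_smul_top_right {x : E} (y : E)
    (hx : x ∈ (𝔫 • (⊤ : Submodule R E) : Submodule R E)) :
    x * y ∈ (𝔫 • (⊤ : Submodule R E) : Submodule R E) := by
  refine Submodule.smul_induction_on (p := fun x => x * y ∈ 𝔫 • (⊤ : Submodule R E)) hx ?_ ?_
  · intro r hr z _
    rw [smul_mul_assoc]
    exact Submodule.smul_mem_smul hr Submodule.mem_top
  · intro a b ha hb
    rw [add_mul]
    exact Submodule.add_mem _ ha hb

instance smulIdeal_isTwoSided : (smulIdeal 𝔫 E).IsTwoSided :=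
  ⟨fun y hx => mul_mem_smul_top_right 𝔫 y hx⟩

theorem smul_mem_smulIdeal {r : R} (hr : r ∈ 𝔫) (x : E) : r • x ∈ smulIdeal 𝔫 E := by
  rw [mem_smulIdeal_iff]
  exact Submodule.smul_mem_smul hr (Submodule.mem_top (x := x))

theorem algebraMap_mem_smulIdeal {r : R} (hr : r ∈ 𝔫) : algebraMap R E r ∈ smulIdeal 𝔫 E := by
  rw [Algebra.algebraMap_eq_smul_one]
  exact smul_mem_smulIdeal 𝔫 hr 1

theorem mul_mem_smul_top {I J : Ideal R} {a b : E} (ha : a ∈ (I • (⊤ : Submodule R E)))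
    (hb : b ∈ (J • (⊤ : Submodule R E))) : a * b ∈ ((I * J) • (⊤ : Submodule R E)) := by
  refine Submodule.smul_induction_on
    (p := fun a => a * b ∈ (I * J) • (⊤ : Submodule R E)) ha ?_ ?_
  · intro r hr z _
    refine Submodule.smul_induction_on
      (p := fun b => (r • z) * b ∈ (I * J) • (⊤ : Submodule R E)) hb ?_ ?_
    · intro s hs w _
      rw [smul_mul_smul_comm]
      exact Submodule.smul_mem_smul (Ideal.mul_mem_mul hr hs) Submodule.mem_top
    · intro a b ha hb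
      rw [mul_add]
      exact Submodule.add_mem _ ha hb
  · intro a c ha hc
    rw [add_mul]
    exact Submodule.add_mem _ ha hc

theorem pow_mem_smul_top {x : E} (hx : x ∈ smulIdeal 𝔫 E) (j : ℕ) :
    x ^ (j + 1) ∈ ((𝔫 ^ (j + 1)) • (⊤ : Submodule R E)) := by
  induction j with
  | zero =>
    rw [zero_add, pow_one, pow_one]
    exact hx
  | succ j ih =>
    rw [pow_succ x (j + 1), pow_succ 𝔫 (j + 1)]
    exact mul_mem_smul_top ih hx

theorem isNilpotent_of_mem_smulIdeal {c : ℕ} (hc : 𝔫 ^ c = ⊥) {x : E} (hx : x ∈ smulIdeal 𝔫 E) :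
    IsNilpotent x := by
  refine ⟨c + 1, ?_⟩
  have h := pow_mem_smul_top 𝔫 hx c
  rw [pow_succ 𝔫 c, hc, Ideal.bot_mul, Submodule.bot_smul] at h
  exact (Submodule.mem_bot R).1 h

end SmulIdeal

end Fermat.Agent.FF2.S32
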