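import Fermat.Agent.FF2.S32.Structure

/-!
# FF2 / S32 : the representation `ρ_R : G →* M₂(R)` carried by a faithful Cayley–Hamilton module

`R` a commutative ring with a nilpotent ideal `𝔫`, `M` a faithful `R`-module with a `G`-action `α`
such that `α g` satisfies `X² - t(g) X + d(g)`, where `t, d : G → R` lift the trace and determinant
of `ρ̄ : G →* M₂(R ⧸ 𝔫)` with `(R ⧸ 𝔫)[G] → M₂(R ⧸ 𝔫)` onto.  Then:

* `exists_matrix_rep` : there are an injective `R`-algebra map `γ : M₂(R) → End_R(M)` and
  `ρ_R : G →* M₂(R)` with `γ (ρ_R g) = α g`, and `ρ_R g` satisfies `X² - t(g) X + d(g)`.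

Combined with `Morita.lean` this gives `M ≅ P × P` with `G` acting through the matrices `ρ_R g`
and `P` faithful.
-/

namespace Fermat.Agent.FF2.S32

open Matrix

section Injective

variable {R C : Type*} [CommRing R] [Ring C] [Algebra R C]

theorem scalar_eq_sum_single (m : Matrix (Fin 2) (Fin 2) R) (i j : Fin 2) :
    algebraMap R (Matrix (Fin 2) (Fin 2) R) (m i j) =
      Matrix.single 0 i 1 * m * Matrix.single j 0 1 + Matrix.single 1 i 1 * m * Matrix.single j 1 1 := by
  rw [Matrix.single_mul_mul_single, Matrix.single_mul_mul_single]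
  ext a b
  fin_cases a <;> fin_cases b <;> simp [Matrix.algebraMap_matrix_apply]

/-- An algebra map out of `M₂(R)` into a faithful `R`-algebra is injective. -/
theorem matrix_algHom_injective (hC : ∀ r : R, algebraMap R C r = 0 → r = 0)
    (γ : Matrix (Fin 2) (Fin 2) R →ₐ[R] C) : Function.Injective γ := by
  rw [injective_iff_map_eq_zero]
  intro m hm
  ext i j
  apply hC
  rw [← AlgHom.commutes γ, scalar_eq_sum_single m i j, map_add, map_mul, map_mul, map_mul, map_mul,
    hm]
  simp

end Injective

section Image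

variable {R G M : Type*} [CommRing R] [Group G] [AddCommGroup M] [Module R M]
  (α : G →* Module.End R M)

/-- The image of `R[G]` in `End_R(M)`. -/
noncomputable def imgAlg : Subalgebra R (Module.End R M) := (alphaLin α).range

theorem alphaLin_mem (a : MonoidAlgebra R G) : alphaLin α a ∈ imgAlg α := ⟨a, rfl⟩

theorem alpha_mem (g : G) : α g ∈ imgAlg α := ⟨MonoidAlgebra.of R G g, alphaLin_of α g⟩

/-- The group elements in `imgAlg`. -/
noncomputable def imgIota : G →* imgAlg α where
  toFun g := ⟨α g, alpha_mem α g⟩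
  map_one' := by
    apply Subtype.ext
    show α 1 = 1
    rw [map_one]
  map_mul' g k := by
    apply Subtype.ext
    show α (g * k) = α g * α k
    rw [map_mul]

theorem imgIota_val (g : G) : ((imgIota α g : imgAlg α) : Module.End R M) = α g := rfl

theorem imgIota_span : Submodule.span R (Set.range (imgIota α)) = ⊤ := by
  rw [eq_top_iff]
  rintro ⟨x, a, rfl⟩ -
  induction a using MonoidAlgebra.induction_on with
  | of g =>
    refine Submodule.subset_span ⟨g, ?_⟩
    apply Subtype.ext
    show α g = alphaLin α (MonoidAlgebra.of R G g)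
    rw [alphaLin_of]
  | add b c hb hc =>
    have : (⟨alphaLin α (b + c), alphaLin_mem α _⟩ : imgAlg α)
        = ⟨alphaLin α b, alphaLin_mem α _⟩ + ⟨alphaLin α c, alphaLin_mem α _⟩ := by
      apply Subtype.ext
      show alphaLin α (b + c) = alphaLin α b + alphaLin α c
      rw [map_add]
    exact this ▸ Submodule.add_mem _ hb hc
  | smul r b hb =>
    have : (⟨alphaLin α (r • b), alphaLin_mem α _⟩ : imgAlg α)
        = r • ⟨alphaLin α b, alphaLin_mem α _⟩ := by
      apply Subtype.ext
      show alphaLin α (r • b) = r • alphaLin α b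
      rw [map_smul]
    exact this ▸ Submodule.smul_mem _ _ hb

end Image

section Rep

variable {R G M : Type*} [CommRing R] [Group G] [AddCommGroup M] [Module R M]
  (𝔫 : Ideal R) {c : ℕ} (hc : 𝔫 ^ c = ⊥)
  (hfaith : ∀ r : R, (∀ m : M, r • m = 0) → r = 0)
  (α : G →* Module.End R M)
  (ρb : G →* Matrix (Fin 2) (Fin 2) (R ⧸ 𝔫)) (hsurj : Function.Surjective (rhoLin ρb))
  (t d : G → R) (ht : ∀ g, Ideal.Quotient.mk 𝔫 (t g) = (ρb g).trace)
  (hd : ∀ g, Ideal.Quotient.mk 𝔫 (d g) = (ρb g).det)
  (hch : ∀ g, α g * α g = t g • α g - d g • (1 : Module.End R M))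

include hc hfaith hsurj ht hd hch in
/-- **The representation over `R`.** -/
theorem exists_matrix_rep :
    ∃ (γ : Matrix (Fin 2) (Fin 2) R →ₐ[R] Module.End R M) (ρR : G →* Matrix (Fin 2) (Fin 2) R),
      Function.Injective γ ∧ (∀ g, γ (ρR g) = α g) ∧
      (∀ g, ρR g * ρR g = t g • ρR g - d g • (1 : Matrix (Fin 2) (Fin 2) R)) := by
  have hchB : ∀ g, imgIota α g * imgIota α g
      = t g • imgIota α g - d g • (1 : imgAlg α) := by
    intro g
    apply Subtype.ext
    simp only [Subalgebra.coe_mul, Subalgebra.coe_sub, Subalgebra.coe_smul, Subalgebra.coe_one,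
      imgIota_val]
    exact hch g
  obtain ⟨γ₀, hγ₀⟩ := exists_matrix_surjective 𝔫 hc (imgIota α) (imgIota_span α) ρb hsurj t d ht hd
    hchB
  set γ : Matrix (Fin 2) (Fin 2) R →ₐ[R] Module.End R M := (imgAlg α).val.comp γ₀ with hγ
  have hEnd : ∀ r : R, algebraMap R (Module.End R M) r = 0 → r = 0 := by
    intro r hr
    apply hfaith
    intro m
    have := congrArg (fun f : Module.End R M => f m) hr
    simpa [Module.algebraMap_end_apply] using this
  have hinj : Function.Injective γ := matrix_algHom_injective hEnd γ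
  have hex : ∀ g, ∃ m, γ m = α g := by
    intro g
    obtain ⟨m, hm⟩ := hγ₀ (imgIota α g)
    refine ⟨m, ?_⟩
    rw [hγ, AlgHom.comp_apply, hm]
    rfl
  choose ρf hρf using hex
  let ρR : G →* Matrix (Fin 2) (Fin 2) R :=
    { toFun := ρf
      map_one' := by
        apply hinj
        rw [hρf, map_one, map_one]
      map_mul' := fun g k => by
        apply hinj
        rw [hρf, map_mul, map_mul, hρf, hρf] }
  refine ⟨γ, ρR, hinj, hρf, ?_⟩
  intro g
  apply hinj
  rw [map_mul, map_sub, map_smul, map_smul, map_one]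
  show γ (ρf g) * γ (ρf g) = t g • γ (ρf g) - d g • 1
  rw [hρf, hch g]

end Rep

end Fermat.Agent.FF2.S32
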