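import Fermat.Agent.FF2.S32.BLRAlgebra
import Fermat.Agent.FF2.S32.Morita
import Fermat.Agent.FF2.S32.LiftUnits
import Fermat.Agent.FF2.S32.MatrixUnits
import Fermat.Agent.FF2.S32.NilQuot

/-!
# FF2 / S32 : the structure theorem (`B ≅ M₂(R)` for a Cayley–Hamilton group algebra quotient)

`R` a commutative ring, `𝔫` a nilpotent ideal, `k = R ⧸ 𝔫`.  `B` an `R`-algebra spanned by the
image of `ι : G →* B`, with `ι g` satisfying `X² - t(g) X + d(g)`, where `t, d` lift the trace and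
determinant of `ρ̄ : G →* M₂(k)` with `k[G] → M₂(k)` onto.  Then there is a SURJECTIVE `R`-algebra map
`γ : M₂(R) → B`.

Proof: BLR over `k` for the `k`-algebra `B ⧸ 𝔫B` gives `β : M₂(k) ↠ B ⧸ 𝔫B`; lift the matrix units
along `B → B ⧸ 𝔫B` (nil kernel); `B = γ(M₂(R)) + 𝔫B` and Nakayama for the nilpotent `𝔫`.
-/

namespace Fermat.Agent.FF2.S32

open Matrix

section QuotAlgebra

variable {R : Type*} [CommRing R] (𝔫 : Ideal R) (B : Type*) [Ring B] [Algebra R B]

/-- The ring map `R ⧸ 𝔫 → B ⧸ 𝔫B`. -/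
noncomputable def quotMap : R ⧸ 𝔫 →+* B ⧸ smulIdeal 𝔫 B :=
  Ideal.Quotient.lift 𝔫 ((Ideal.Quotient.mk (smulIdeal 𝔫 B)).comp (algebraMap R B))
    (fun r hr => by
      rw [RingHom.comp_apply]
      exact Ideal.Quotient.eq_zero_iff_mem.2 (algebraMap_mem_smulIdeal 𝔫 hr))

theorem quotMap_mk (r : R) :
    quotMap 𝔫 B (Ideal.Quotient.mk 𝔫 r) = Ideal.Quotient.mk (smulIdeal 𝔫 B) (algebraMap R B r) :=
  rfl

/-- `B ⧸ 𝔫B` as an algebra over `R ⧸ 𝔫`. -/
@[reducible] noncomputable def quotAlgebra : Algebra (R ⧸ 𝔫) (B ⧸ smulIdeal 𝔫 B) :=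
  (quotMap 𝔫 B).toAlgebra' (fun c x => by
    obtain ⟨r, rfl⟩ := Ideal.Quotient.mk_surjective c
    obtain ⟨y, rfl⟩ := Ideal.Quotient.mk_surjective x
    rw [quotMap_mk, ← map_mul, ← map_mul, Algebra.commutes])

theorem quot_smul_eq (r : R) (x : B ⧸ smulIdeal 𝔫 B) :
    letI := quotAlgebra 𝔫 B
    (Ideal.Quotient.mk 𝔫 r) • x = r • x := by
  letI := quotAlgebra 𝔫 B
  rw [Algebra.smul_def, Algebra.smul_def]
  rfl

end QuotAlgebra

section Structure

variable {R G B : Type*} [CommRing R] [Group G] [Ring B] [Algebra R B]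
  (𝔫 : Ideal R) {c : ℕ} (hc : 𝔫 ^ c = ⊥)
  (ι : G →* B) (hspan : Submodule.span R (Set.range ι) = ⊤)
  (ρb : G →* Matrix (Fin 2) (Fin 2) (R ⧸ 𝔫)) (hsurj : Function.Surjective (rhoLin ρb))
  (t d : G → R) (ht : ∀ g, Ideal.Quotient.mk 𝔫 (t g) = (ρb g).trace)
  (hd : ∀ g, Ideal.Quotient.mk 𝔫 (d g) = (ρb g).det)
  (hch : ∀ g, ι g * ι g = t g • ι g - d g • (1 : B))

include hc hspan hsurj ht hd hch in
/-- **Structure theorem**: a surjective algebra map `M₂(R) → B`. -/
theorem exists_matrix_surjective :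
    ∃ γ : Matrix (Fin 2) (Fin 2) R →ₐ[R] B, Function.Surjective γ := by
  letI := quotAlgebra 𝔫 B
  set K := smulIdeal 𝔫 B with hK
  set π : B →+* B ⧸ K := Ideal.Quotient.mk K with hπdef
  have hπsurj : Function.Surjective π := Ideal.Quotient.mk_surjective
  have hπsmul : ∀ (r : R) (x : B), π (r • x) = (Ideal.Quotient.mk 𝔫 r) • π x := by
    intro r x
    rw [quot_smul_eq]
    exact map_smul (Ideal.Quotient.mkₐ R K) r x
  have hπker : ∀ x ∈ RingHom.ker π, IsNilpotent x := by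
    intro x hx
    rw [hπdef, Ideal.mk_ker] at hx
    exact isNilpotent_of_mem_smulIdeal 𝔫 hc hx
  -- the group in the quotient
  set αS : G →* B ⧸ K := (π : B →* B ⧸ K).comp ι with hαS
  have hαS_apply : ∀ g, αS g = π (ι g) := fun g => rfl
  have hchS : ∀ g : G, αS g * αS g = (ρb g).trace • αS g - (ρb g).det • (1 : B ⧸ K) := by
    intro g
    rw [hαS_apply, ← map_mul, hch g, map_sub, hπsmul, hπsmul, ht, hd, map_one]
  set β := blrAlgHom ρb αS hsurj hchS with hβ
  have hβρ : ∀ g, β (ρb g) = π (ι g) := fun g => blrAlgHom_rho ρb αS hsurj hchS g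
  -- `β` is onto
  have hβsurj : ∀ x : B, ∃ m, β m = π x := by
    intro x
    have hx : x ∈ Submodule.span R (Set.range ι) := hspan ▸ Submodule.mem_top
    induction hx using Submodule.span_induction with
    | mem x hx =>
      obtain ⟨g, rfl⟩ := hx
      exact ⟨ρb g, hβρ g⟩
    | zero => exact ⟨0, by rw [map_zero, map_zero]⟩
    | add x y _ _ hx hy =>
      obtain ⟨m, hm⟩ := hx
      obtain ⟨m', hm'⟩ := hy
      exact ⟨m + m', by rw [map_add, map_add, hm, hm']⟩
    | smul r x _ hx =>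
      obtain ⟨m, hm⟩ := hx
      exact ⟨(Ideal.Quotient.mk 𝔫 r) • m, by rw [map_smul, hm, hπsmul]⟩
  -- lifts of the matrix units
  obtain ⟨x11, hx11⟩ := hπsurj (β (E 0 0))
  obtain ⟨x12, hx12⟩ := hπsurj (β (E 0 1))
  obtain ⟨x21, hx21⟩ := hπsurj (β (E 1 0))
  have hEE : ∀ i j k l : Fin 2, β (E i j) * β (E k l) = if j = k then β (E i l) else 0 := by
    intro i j k l
    rw [← map_mul, E_mul_E]
    split_ifs <;> simp
  have hE11 : β (E 1 1) = 1 - β (E 0 0) := by
    rw [eq_sub_iff_add_eq', ← map_add, E_sum, map_one]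
  obtain ⟨e, u, v, hee, heu, hue, hve, hev, huv, hvu, hπe, hπu, hπv⟩ :=
    lift_matrix_units π hπker x11 x12 x21
      (by rw [hx11, hEE, if_pos rfl])
      (by rw [hx11, hx12, hEE, if_pos rfl])
      (by rw [hx11, hx12, hEE, if_neg (by decide)])
      (by rw [hx11, hx21, hEE, if_pos rfl])
      (by rw [hx11, hx21, hEE, if_neg (by decide)])
      (by rw [hx11, hx12, hx21, hEE, if_pos rfl])
      (by rw [hx11, hx12, hx21, hEE, if_pos rfl, hE11])
  rw [hx11] at hπe
  rw [hx12] at hπu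
  rw [hx21] at hπv
  set U := unitFamily e u v with hU
  have hUmul := unitFamily_mul hee heu hue hve hev huv hvu
  have hUsum := unitFamily_sum (e := e) (u := u) (v := v)
  set γ : Matrix (Fin 2) (Fin 2) R →ₐ[R] B := unitsHom U hUmul hUsum with hγ
  have hπU : ∀ i j, π (U i j) = β (E i j) := by
    intro i j
    fin_cases i <;> fin_cases j
    · exact hπe
    · exact hπu
    · exact hπv
    · show π (1 - e) = β (E 1 1)
      rw [map_sub, map_one, hπe, hE11]
  have hπγ : ∀ m : Matrix (Fin 2) (Fin 2) R,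
      π (γ m) = β (m.map (Ideal.Quotient.mk 𝔫)) := by
    intro m
    rw [hγ, unitsHom_apply]
    conv_rhs => rw [matrix_eq_sum_E (m.map (Ideal.Quotient.mk 𝔫))]
    simp only [map_add, hπsmul, hπU, map_smul, Matrix.map_apply]
    abel
  refine ⟨γ, ?_⟩
  -- Nakayama
  have hle : (⊤ : Submodule R B) ≤ LinearMap.range γ.toLinearMap ⊔ 𝔫 • (⊤ : Submodule R B) := by
    intro x _
    obtain ⟨mb, hmb⟩ := hβsurj x
    set m : Matrix (Fin 2) (Fin 2) R :=
      mb.map (Function.surjInv (Ideal.Quotient.mk_surjective (I := 𝔫))) with hm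
    have hmm : m.map (Ideal.Quotient.mk 𝔫) = mb := by
      ext i j
      simp only [hm, Matrix.map_apply]
      exact Function.surjInv_eq _ _
    have h0 : π (x - γ m) = 0 := by rw [map_sub, hπγ, hmm, hmb, sub_self]
    have h1 : x - γ m ∈ K := Ideal.Quotient.eq_zero_iff_mem.1 h0
    have h2 : x = γ m + (x - γ m) := by abel
    rw [h2]
    exact Submodule.add_mem_sup ⟨m, rfl⟩ ((mem_smulIdeal_iff 𝔫).1 h1)
  have htop := le_of_le_sup_smul 𝔫 hc _ _ hle
  intro x
  obtain ⟨m, hm⟩ := htop (Submodule.mem_top (x := x))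
  exact ⟨m, hm⟩

end Structure

end Fermat.Agent.FF2.S32
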